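import Mathlib

set_option autoImplicit false

/-!
# A freeness criterion over Noetherian local rings

Let `(A, 𝔪)` be a Noetherian local ring whose maximal ideal is generated by at most `n` elements,
and let `N` be a finitely generated `A`-module admitting an `N`-regular sequence of length `n`
inside `𝔪`.  Then `N` is free.  (This is the special case of Auslander--Buchsbaum used in the
patching argument.)
-/

universe u

namespace Fermat.Agent.Lib.DepthFree

open IsLocalRing RingTheory.Sequence CategoryTheory Abelian

section Generators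

variable {A : Type u} [CommRing A] [IsLocalRing A]

/-- If `x ∈ 𝔪 \ 𝔪²` and `𝔪` is generated by the finite set `s`, then one generator can be traded
for `x`. -/
theorem exists_erase_generator (s : Finset A) (hs : Ideal.span (s : Set A) = maximalIdeal A)
    {x : A} (hx : x ∈ maximalIdeal A) (hx2 : x ∉ maximalIdeal A ^ 2) :
    ∃ t : Finset A, t.card + 1 ≤ s.card ∧
      Ideal.span (insert x (t : Set A)) = maximalIdeal A := by
  classical
  have hxs : x ∈ Submodule.span A (s : Set A) := by
    change x ∈ Ideal.span (s : Set A)
    rw [hs]; exact hx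
  obtain ⟨f, -, hf⟩ := Submodule.mem_span_finset.mp hxs
  have hsm : ∀ a ∈ s, a ∈ maximalIdeal A := fun a ha => by
    rw [← hs]; exact Ideal.subset_span ha
  -- some coefficient is a unit
  have hunit : ∃ a0 ∈ s, IsUnit (f a0) := by
    by_contra hcon
    push Not at hcon
    apply hx2
    rw [← hf, pow_two]
    refine Ideal.sum_mem _ fun a ha => ?_
    rw [smul_eq_mul]
    exact Ideal.mul_mem_mul ((mem_maximalIdeal _).mpr (hcon a ha)) (hsm a ha)
  obtain ⟨a0, ha0, hu⟩ := hunit
  refine ⟨s.erase a0, ?_, ?_⟩
  · rw [Finset.card_erase_of_mem ha0]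
    have : 0 < s.card := Finset.card_pos.mpr ⟨a0, ha0⟩
    omega
  · apply le_antisymm
    · rw [Ideal.span_le]
      intro y hy
      rcases hy with rfl | hy
      · exact hx
      · exact hsm y (Finset.mem_of_mem_erase hy)
    · rw [← hs, Ideal.span_le]
      intro y hy
      by_cases hya : y = a0
      · obtain ⟨u, hu'⟩ := hu
        have hsum : f a0 * a0 = x - ∑ a ∈ s.erase a0, f a • a := by
          rw [← hf, ← Finset.add_sum_erase s _ ha0]
          simp [smul_eq_mul]
        have hy' : y = (↑u⁻¹ : A) * (x - ∑ a ∈ s.erase a0, f a • a) := by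
          rw [hya, ← hsum, ← hu', ← mul_assoc, Units.inv_mul, one_mul]
        have hmem : (↑u⁻¹ : A) * (x - ∑ a ∈ s.erase a0, f a • a) ∈
            Ideal.span (insert x ((s.erase a0 : Finset A) : Set A)) := by
          refine Ideal.mul_mem_left _ _ (Ideal.sub_mem _ ?_ ?_)
          · exact Ideal.subset_span (Set.mem_insert _ _)
          · refine Ideal.sum_mem _ fun a ha => ?_
            rw [smul_eq_mul]
            exact Ideal.mul_mem_left _ _ (Ideal.subset_span (Set.mem_insert_of_mem _ ha))
        exact hy' ▸ hmem
      · exact Ideal.subset_span (Set.mem_insert_of_mem _ (Finset.mem_erase.mpr ⟨hya, hy⟩))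

/-- The maximal ideal of a local quotient of a local ring is the image of the maximal
ideal. -/
theorem map_mk_maximalIdeal (I : Ideal A) [IsLocalRing (A ⧸ I)] :
    Ideal.map (Ideal.Quotient.mk I) (maximalIdeal A) = maximalIdeal (A ⧸ I) := by
  have hmax : (Ideal.comap (Ideal.Quotient.mk I) (maximalIdeal (A ⧸ I))).IsMaximal :=
    Ideal.comap_isMaximal_of_surjective _ Ideal.Quotient.mk_surjective
  rw [← IsLocalRing.eq_maximalIdeal hmax,
    Ideal.map_comap_of_surjective _ Ideal.Quotient.mk_surjective]

/-- Generators of the maximal ideal of `A ⧸ (x)` from generators `insert x t` of `𝔪`. -/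
theorem span_image_eq_maximalIdeal_quotient {x : A} (t : Finset A)
    (ht : Ideal.span (insert x (t : Set A)) = maximalIdeal A)
    [IsLocalRing (A ⧸ Ideal.span {x})] :
    Ideal.span ((Ideal.Quotient.mk (Ideal.span {x})) '' (t : Set A)) =
      maximalIdeal (A ⧸ Ideal.span {x}) := by
  rw [← map_mk_maximalIdeal, ← ht, Ideal.map_span, Set.image_insert_eq]
  have h0 : (Ideal.Quotient.mk (Ideal.span {x})) x = 0 :=
    Ideal.Quotient.eq_zero_iff_mem.mpr (Ideal.subset_span rfl)
  rw [h0]
  apply le_antisymm
  · exact Ideal.span_mono (Set.subset_insert _ _)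
  · rw [Ideal.span_le]
    intro y hy
    rcases hy with rfl | hy
    · exact Ideal.zero_mem _
    · exact Ideal.subset_span hy

end Generators

section Depth

variable (A : Type u) [CommRing A] [IsLocalRing A] [IsNoetherianRing A]
variable (N : Type u) [AddCommGroup N] [Module A N] [Module.Finite A N]

/-- Depth drops by exactly one modulo a regular element (we only need the inequality): if `N` has
a regular sequence of length `n + 1` in `𝔪` and `x ∈ 𝔪` is `N`-regular, then `N ⧸ x N` has a
regular sequence of length `n` in `𝔪`. -/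
theorem exists_isRegular_quotSMulTop {n : ℕ} (rs : List A) (hlen : rs.length = n + 1)
    (hmem : ∀ r ∈ rs, r ∈ maximalIdeal A) (hreg : IsRegular N rs) {x : A}
    (hx : x ∈ maximalIdeal A) (hxreg : IsSMulRegular N x) :
    ∃ rs' : List A, rs'.length = n ∧ (∀ r ∈ rs', r ∈ maximalIdeal A) ∧
      IsRegular (QuotSMulTop x N) rs' := by
  have : Nontrivial N := hreg.nontrivial
  have : Nontrivial (QuotSMulTop x N) := nontrivial_quotSMulTop_of_mem_maximalIdeal N hx
  have smul_lt : maximalIdeal A • (⊤ : Submodule A N) < ⊤ :=
    lt_top_iff_ne_top.mpr (Ne.symm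
      (Submodule.top_ne_ideal_smul_of_le_jacobson_annihilator (maximalIdeal_le_jacobson _)))
  have smul_lt' : maximalIdeal A • (⊤ : Submodule A (QuotSMulTop x N)) < ⊤ :=
    lt_top_iff_ne_top.mpr (Ne.symm
      (Submodule.top_ne_ideal_smul_of_le_jacobson_annihilator (maximalIdeal_le_jacobson _)))
  let K : ModuleCat.{u} A := ModuleCat.of A (A ⧸ maximalIdeal A)
  have hsupp : Module.support A K = PrimeSpectrum.zeroLocus (maximalIdeal A : Set A) := by
    change Module.support A (A ⧸ maximalIdeal A) = _
    rw [Module.support_eq_zeroLocus, Ideal.annihilator_quotient]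
  have h_ext : ∀ i < n + 1, Subsingleton (Ext K (ModuleCat.of A N) i) := by
    intro i hi
    exact ModuleCat.subsingleton_ext_of_exists_isRegular (maximalIdeal A) K hsupp.subset
      (ModuleCat.of A N) smul_lt rs hmem hreg i (hlen ▸ hi)
  have hxreg' : IsSMulRegular (ModuleCat.of A N) x := hxreg
  have h_ext' : ∀ i < n, Subsingleton (Ext K (ModuleCat.of A (QuotSMulTop x N)) i) := by
    intro i hi
    have zero1 := AddCommGrpCat.isZero_of_iff_subsingleton.mpr (h_ext i (by omega))
    have zero2 := AddCommGrpCat.isZero_of_iff_subsingleton.mpr (h_ext (i + 1) (by omega))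
    exact AddCommGrpCat.subsingleton_of_isZero <| ShortComplex.Exact.isZero_of_both_zeros
      ((Ext.covariant_sequence_exact₃' K hxreg'.smulShortComplex_shortExact) i (i + 1) rfl)
      (zero1.eq_zero_of_src _) (zero2.eq_zero_of_tgt _)
  exact ModuleCat.exists_isRegular_of_exists_subsingleton_ext (maximalIdeal A) n
    (ModuleCat.of A (QuotSMulTop x N)) smul_lt' K hsupp h_ext'

end Depth

section Main

/-- Auxiliary form of the freeness criterion, set up for induction on `n`. -/
theorem free_of_isRegular_aux (n : ℕ) :
    ∀ (A : Type u) [CommRing A] [IsLocalRing A] [IsNoetherianRing A]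
      (N : Type u) [AddCommGroup N] [Module A N] [Module.Finite A N] (s : Finset A),
      s.card ≤ n → Ideal.span (s : Set A) = maximalIdeal A →
      ∀ rs : List A, rs.length = n → (∀ r ∈ rs, r ∈ maximalIdeal A) → IsRegular N rs →
      Module.Free A N := by
  classical
  induction n with
  | zero =>
    intro A _ _ _ N _ _ _ s hs hspan rs _ _ _
    have hs0 : s = ∅ := Finset.card_eq_zero.mp (Nat.le_zero.mp hs)
    have hm : maximalIdeal A = ⊥ := by
      rw [← hspan, hs0]; simp
    have hf : IsField A := isField_iff_maximalIdeal_eq.mpr hm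
    let := hf.toField
    exact Module.Free.of_divisionRing A N
  | succ n ih =>
    intro A _ _ _ N _ _ _ s hs hspan rs hlen hmem hreg
    have : Nontrivial N := hreg.nontrivial
    -- the first element of the sequence is a regular element in `𝔪`
    obtain ⟨y, rs₀, rfl⟩ : ∃ y rs₀, rs = y :: rs₀ := by
      cases rs with
      | nil => simp at hlen
      | cons y rs₀ => exact ⟨y, rs₀, rfl⟩
    have hy : y ∈ maximalIdeal A := hmem y List.mem_cons_self
    have hyreg : IsSMulRegular N y := ((isRegular_cons_iff N y rs₀).mp hreg).1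
    -- `𝔪 ≠ 𝔪²`
    have hm2 : ¬ maximalIdeal A ≤ maximalIdeal A ^ 2 := by
      intro hle
      have hbot : maximalIdeal A = ⊥ := by
        refine Submodule.eq_bot_of_le_smul_of_le_jacobson_bot (maximalIdeal A) (maximalIdeal A)
          (IsNoetherian.noetherian _) ?_ (maximalIdeal_le_jacobson _)
        rwa [smul_eq_mul, ← pow_two]
      have hy0 : y = 0 := by simpa [hbot] using hy
      obtain ⟨a, ha⟩ := exists_ne (0 : N)
      exact ha (hyreg (by simp [hy0]))
    -- prime avoidance
    have hfin : (associatedPrimes A N).Finite := associatedPrimes.finite A N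
    obtain ⟨x, hx, hx2, hxass⟩ : ∃ x ∈ maximalIdeal A, x ∉ maximalIdeal A ^ 2 ∧
        ∀ P ∈ associatedPrimes A N, x ∉ P := by
      by_contra hcon
      push Not at hcon
      have hsub : ((maximalIdeal A : Ideal A) : Set A) ⊆
          ⋃ P ∈ ((insert (maximalIdeal A ^ 2) hfin.toFinset : Finset (Ideal A)) : Set (Ideal A)),
            ((id P : Ideal A) : Set A) := by
        intro z hz
        by_cases hz2 : z ∈ maximalIdeal A ^ 2
        · exact Set.mem_biUnion (Finset.mem_coe.mpr (Finset.mem_insert_self _ _)) hz2
        · obtain ⟨P, hP, hzP⟩ := hcon z hz hz2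
          exact Set.mem_biUnion (Finset.mem_coe.mpr
            (Finset.mem_insert_of_mem (hfin.mem_toFinset.mpr hP))) hzP
      obtain ⟨P, hP, hle⟩ := (Ideal.subset_union_prime (maximalIdeal A ^ 2) (maximalIdeal A ^ 2)
        (fun P hP hne _ => by
          rcases Finset.mem_insert.mp hP with rfl | hP
          · exact absurd rfl hne
          · exact IsAssociatedPrime.isPrime (hfin.mem_toFinset.mp hP))).mp hsub
      rcases Finset.mem_insert.mp hP with rfl | hP
      · exact hm2 hle
      · have hPass : IsAssociatedPrime P N := hfin.mem_toFinset.mp hP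
        have hPprime : P.IsPrime := hPass.isPrime
        have hyP : y ∈ P := hle hy
        have hynot : y ∈ {r : A | IsSMulRegular N r}ᶜ := by
          rw [← biUnion_associatedPrimes_eq_compl_regular A N]
          exact Set.mem_biUnion hPass hyP
        exact hynot hyreg
    have hxreg : IsSMulRegular N x := by
      by_contra hnr
      have : x ∈ {r : A | IsSMulRegular N r}ᶜ := hnr
      rw [← biUnion_associatedPrimes_eq_compl_regular A N] at this
      obtain ⟨P, hP, hxP⟩ := Set.mem_iUnion₂.mp this
      exact hxass P hP hxP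
    -- pass to the quotient
    have hne : Ideal.span {x} ≠ ⊤ := fun h =>
      (maximalIdeal.isMaximal A).ne_top (top_le_iff.mp (h ▸ (Ideal.span_singleton_le_iff_mem _).mpr hx))
    have : Nontrivial (A ⧸ Ideal.span {x}) := Ideal.Quotient.nontrivial_iff.mpr hne
    have : IsLocalRing (A ⧸ Ideal.span {x}) :=
      IsLocalRing.of_surjective' (Ideal.Quotient.mk (Ideal.span {x})) Ideal.Quotient.mk_surjective
    obtain ⟨t, htcard, htspan⟩ := exists_erase_generator s hspan hx hx2
    have hspan' := span_image_eq_maximalIdeal_quotient t htspan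
    obtain ⟨rs', hlen', hmem', hreg'⟩ :=
      exists_isRegular_quotSMulTop A N (y :: rs₀) hlen hmem hreg hx hxreg
    have : Module.Finite (A ⧸ Ideal.span {x}) (QuotSMulTop x N) :=
      Module.Finite.of_restrictScalars_finite A (A ⧸ Ideal.span {x}) (QuotSMulTop x N)
    have hfree' : Module.Free (A ⧸ Ideal.span {x}) (QuotSMulTop x N) := by
      refine ih (A ⧸ Ideal.span {x}) (QuotSMulTop x N)
        (t.image (Ideal.Quotient.mk (Ideal.span {x}))) ?_ ?_
        (rs'.map (Ideal.Quotient.mk (Ideal.span {x}))) ?_ ?_ ?_
      · exact (Finset.card_image_le).trans (by omega)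
      · rw [Finset.coe_image]; exact hspan'
      · rw [List.length_map]; exact hlen'
      · intro r hr
        obtain ⟨r0, hr0, rfl⟩ := List.mem_map.mp hr
        rw [← map_mk_maximalIdeal]
        exact Ideal.mem_map_of_mem _ (hmem' r0 hr0)
      · have : Nontrivial (QuotSMulTop x N) := nontrivial_quotSMulTop_of_mem_maximalIdeal N hx
        refine IsRegular.of_isWeaklyRegular_of_mem_maximalIdeal (QuotSMulTop x N) ?_ ?_
        · intro r hr
          obtain ⟨r0, hr0, rfl⟩ := List.mem_map.mp hr
          rw [← map_mk_maximalIdeal]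
          exact Ideal.mem_map_of_mem _ (hmem' r0 hr0)
        · exact (isWeaklyRegular_map_algebraMap_iff (A ⧸ Ideal.span {x}) (QuotSMulTop x N) rs').mpr
            hreg'.toIsWeaklyRegular
    have : Module.FinitePresentation A N := Module.finitePresentation_of_finite A N
    exact (Module.free_quotSMulTop_iff_free A N
      (by rw [IsLocalRing.jacobson_eq_maximalIdeal ⊥ bot_ne_top]; exact hx) hxreg).mp hfree'

/-- **Freeness criterion.**  Let `(A, 𝔪)` be a Noetherian local ring with `𝔪` generated by a
finite set of at most `n` elements, and `N` a finite `A`-module with an `N`-regular sequence of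
length `n` contained in `𝔪`.  Then `N` is a free `A`-module. -/
theorem free_of_isRegular {A : Type u} [CommRing A] [IsLocalRing A] [IsNoetherianRing A]
    {N : Type u} [AddCommGroup N] [Module A N] [Module.Finite A N] (s : Finset A)
    (hspan : Ideal.span (s : Set A) = maximalIdeal A) (rs : List A) (hcard : s.card ≤ rs.length)
    (hmem : ∀ r ∈ rs, r ∈ maximalIdeal A) (hreg : IsRegular N rs) : Module.Free A N :=
  free_of_isRegular_aux rs.length A N s hcard hspan rs rfl hmem hreg

end Main

end Fermat.Agent.Lib.DepthFree
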