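import Mathlib
import Fermat.Prelude.Def_EllipticCurve_FrobeniusTrace

/-!
# Existence of valuation subrings over a prime and of Frobenius elements

Shared library file.  Main results (all in namespace `Fermat.Agent.Lib.FrobeniusExists`):

* `isAlgClosure_rat` (also an instance): `IsAlgClosure ℚ (AlgebraicClosure ℚ)` for the
  `ℚ`-algebra structure `DivisionRing.toRatAlgebra` that the frozen statements use.
* `exists_valuationSubring_liesOverPrime`: for a field `L` of characteristic zero and a prime `l`
  there is a valuation subring `A` of `L` with `A.LiesOverPrime l`.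
* `exists_isFrobeniusAt`: for a Galois extension `L/ℚ` (possibly infinite), a valuation subring
  `A` of `L` with `A.LiesOverPrime l` (`l` prime) has a Frobenius element `σ : L ≃ₐ[ℚ] L`,
  i.e. `A.IsFrobeniusAt σ l`.
* `exists_isFrobeniusAt_algebraicClosure`, `exists_valuationSubring_isFrobeniusAt`: the
  specialisations to `AlgebraicClosure ℚ`.
-/

open scoped Pointwise
open Polynomial

set_option linter.style.haveILetI false
set_option linter.unusedSectionVars false

namespace Fermat.Agent.Lib.FrobeniusExists

/-! ### The algebraic closure of `ℚ` with the algebra structure used by the statements -/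

theorem isAlgClosure_rat : IsAlgClosure ℚ (AlgebraicClosure ℚ) := by
  have h : (DivisionRing.toRatAlgebra : Algebra ℚ (AlgebraicClosure ℚ)) =
      AlgebraicClosure.instAlgebra ℚ := Subsingleton.elim _ _
  rw [h]
  infer_instance

instance instIsAlgClosureRat : IsAlgClosure ℚ (AlgebraicClosure ℚ) := isAlgClosure_rat

/-! ### Part 1: existence of a valuation subring over a prime -/

/-- For every field `L` of characteristic zero and prime `l`, there is a valuation subring
of `L` in which `l` is a nonunit. -/
theorem exists_valuationSubring_liesOverPrime {L : Type*} [Field L] [CharZero L]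
    (l : ℕ) (hl : l.Prime) :
    ∃ A : ValuationSubring L, A.LiesOverPrime l := by
  let A0 : Subring L := (Int.castRingHom L).range
  have hlA0 : (l : L) ∈ A0 := ⟨(l : ℤ), by simp⟩
  let I : Ideal A0 := Ideal.span {⟨(l : L), hlA0⟩}
  have hI : I ≠ ⊤ := by
    intro h
    rw [Ideal.eq_top_iff_one, Ideal.mem_span_singleton'] at h
    obtain ⟨⟨a, n, rfl⟩, ha⟩ := h
    have h1 : ((n * l : ℤ) : L) = ((1 : ℤ) : L) := by
      have := congrArg Subtype.val ha
      simpa using this
    have h2 : (n * l : ℤ) = 1 := Int.cast_injective h1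
    have h3 : (l : ℤ) ∣ 1 := ⟨n, by rw [← h2]; ring⟩
    have h4 : l ∣ 1 := by exact_mod_cast h3
    exact hl.one_lt.ne' (Nat.dvd_one.mp h4)
  obtain ⟨B, -, hB⟩ := Ideal.image_subset_nonunits_valuationSubring I hI
  refine ⟨B, ?_⟩
  apply hB
  exact ⟨⟨(l : L), hlA0⟩, Ideal.subset_span rfl, rfl⟩

/-! ### Valuation-subring helper lemmas -/

theorem nonunits_mul_mem {L : Type*} [Field L] (A : ValuationSubring L) {a b : L}
    (ha : a ∈ A.nonunits) (hb : b ∈ A) : a * b ∈ A.nonunits := by
  rw [A.mem_nonunits_iff] at *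
  rw [← A.valuation_le_one_iff] at hb
  rw [map_mul]
  exact mul_lt_one_of_lt_of_le ha hb

theorem valuation_eq_one_of_mem_of_not_mem_nonunits {L : Type*} [Field L]
    (A : ValuationSubring L) {a : L} (ha : a ∈ A) (ha' : a ∉ A.nonunits) :
    A.valuation a = 1 := by
  rw [A.mem_nonunits_iff, not_lt] at ha'
  exact le_antisymm ((A.valuation_le_one_iff a).mpr ha) ha'

/-- Kaplansky-style lemma: if `R` is integrally closed in `L`, then every element of the
valuation ring `A` that is a root of a polynomial over `R` with some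
coefficient a unit of `A` is a fraction `t / s` with `s, t ∈ R` and `s` a unit of `A`. -/
theorem exists_mul_eq_of_aeval_eq_zero {L : Type*} [Field L] (A : ValuationSubring L)
    {R : Type*} [CommRing R] [Algebra R L]
    (hR : ∀ x : L, IsIntegral R x → ∃ r : R, algebraMap R L r = x)
    (x : L) (hx : x ∈ A) (n : ℕ) :
    ∀ p : Polynomial R, p.natDegree ≤ n → Polynomial.aeval x p = 0 →
      (∃ i, algebraMap R L (p.coeff i) ∉ A.nonunits) →
      ∃ s t : R, algebraMap R L s ∉ A.nonunits ∧ algebraMap R L s * x = algebraMap R L t := by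
  induction n with
  | zero =>
    intro p hp hpx ⟨i, hi⟩
    exfalso
    have hpC : p = C (p.coeff 0) := Polynomial.eq_C_of_natDegree_le_zero hp
    rw [hpC, aeval_C] at hpx
    apply hi
    rw [hpC, coeff_C]
    split_ifs
    · rw [hpx]; exact A.nonunits.zero_mem
    · rw [map_zero]; exact A.nonunits.zero_mem
  | succ n ih =>
    intro p hp hpx ⟨i, hi⟩
    by_cases hdeg : p.natDegree ≤ n
    · exact ih p hdeg hpx ⟨i, hi⟩
    have hdeg' : p.natDegree = n + 1 := le_antisymm hp (Nat.lt_of_not_le hdeg)
    obtain ⟨d, hd⟩ := hR _ (isIntegral_leadingCoeff_smul p x hpx)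
    rw [Algebra.smul_def] at hd
    by_cases hc : algebraMap R L p.leadingCoeff ∈ A.nonunits
    · -- reduce the degree
      have hdm : algebraMap R L d ∈ A.nonunits := by
        rw [hd]; exact nonunits_mul_mem A hc hx
      refine ih (p.eraseLead + C d * X ^ n) ?_ ?_ ?_
      · refine (natDegree_add_le _ _).trans (max_le ?_ ?_)
        · have := eraseLead_natDegree_le p
          omega
        · exact natDegree_C_mul_X_pow_le d n
      · have h1 := congrArg (aeval x) (eraseLead_add_C_mul_X_pow p)
        rw [hpx, map_add, hdeg'] at h1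
        rw [map_add, ← h1]
        congr 1
        simp only [map_mul, aeval_C, map_pow, aeval_X]
        rw [hd]; ring
      · have hi1 : i ≠ n + 1 := by
          rintro rfl
          apply hi
          rw [← hdeg']
          exact hc
        have hi2 : i ≤ n := by
          by_contra hlt
          apply hi
          rw [coeff_eq_zero_of_natDegree_lt (by omega), map_zero]
          exact A.nonunits.zero_mem
        refine ⟨i, ?_⟩
        rw [coeff_add, eraseLead_coeff_of_ne i (by rw [hdeg']; exact hi1), coeff_C_mul,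
          coeff_X_pow]
        split_ifs with hin
        · rw [mul_one, map_add]
          intro h
          apply hi
          have := A.nonunits.add_mem h (A.nonunits.neg_mem hdm)
          simpa using this
        · rwa [mul_zero, add_zero]
    · exact ⟨p.leadingCoeff, d, hc, hd.symm⟩

theorem intCast_not_mem_nonunits {L : Type*} [Field L] (A : ValuationSubring L)
    {l : ℕ} (hl : l.Prime) (hA : A.LiesOverPrime l) {c : ℤ} (hc : ¬ (l : ℤ) ∣ c) :
    (c : L) ∉ A.nonunits := by
  intro h
  have hcop : IsCoprime (l : ℤ) c := by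
    rw [Int.isCoprime_iff_gcd_eq_one]
    have := (Nat.Prime.coprime_iff_not_dvd hl).mpr (fun hd => hc (Int.natCast_dvd.mpr hd))
    simpa [Int.gcd] using this
  obtain ⟨u, v, huv⟩ := hcop
  have h1 : ((u * l + v * c : ℤ) : L) ∈ A.nonunits := by
    push_cast
    refine A.nonunits.add_mem ?_ ?_
    · rw [mul_comm]
      rw [A.mem_nonunits_iff, map_mul]
      exact mul_lt_one_of_lt_of_le (A.mem_nonunits_iff.mp hA)
        ((A.valuation_le_one_iff _).mpr (intCast_mem A u))
    · rw [mul_comm]
      rw [A.mem_nonunits_iff, map_mul]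
      exact mul_lt_one_of_lt_of_le (A.mem_nonunits_iff.mp h)
        ((A.valuation_le_one_iff _).mpr (intCast_mem A v))
  rw [huv, Int.cast_one, A.mem_nonunits_iff, map_one] at h1
  exact lt_irrefl _ h1

/-- Every element of a valuation subring `A` of an algebraic extension `L` of `ℚ` lying
over `l` is a fraction of algebraic integers with denominator a unit of `A`. -/
theorem exists_integral_mul_eq {L : Type*} [Field L] [Algebra ℚ L] [Algebra.IsAlgebraic ℚ L]
    (A : ValuationSubring L) {l : ℕ} (hl : l.Prime) (hA : A.LiesOverPrime l)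
    (x : L) (hx : x ∈ A) :
    ∃ s t : integralClosure ℤ L, (s : L) ∉ A.nonunits ∧ (s : L) * x = (t : L) := by
  haveI : CharZero L := algebraRat.charZero L
  have hxalg : IsAlgebraic ℤ x :=
    (IsFractionRing.isAlgebraic_iff ℤ ℚ L).mpr (Algebra.IsAlgebraic.isAlgebraic x)
  obtain ⟨p0, hp0, hp0x⟩ := hxalg
  have hp1x : aeval x p0.primPart = 0 := aeval_primPart_eq_zero hp0 hp0x
  have hprim : p0.primPart.IsPrimitive := p0.isPrimitive_primPart
  have hex : ∃ i, ¬ (l : ℤ) ∣ p0.primPart.coeff i := by
    by_contra hcon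
    push Not at hcon
    have hdvd : C (l : ℤ) ∣ p0.primPart := (C_dvd_iff_dvd_coeff _ _).mpr hcon
    have hu := hprim _ hdvd
    rw [Int.isUnit_iff] at hu
    have := hl.one_lt
    omega
  obtain ⟨i, hi⟩ := hex
  have hR : ∀ y : L, IsIntegral (integralClosure ℤ L) y →
      ∃ r : integralClosure ℤ L, algebraMap (integralClosure ℤ L) L r = y := by
    intro y hy
    exact ⟨⟨y, isIntegral_trans y hy⟩, rfl⟩
  obtain ⟨s, t, hs, hst⟩ := exists_mul_eq_of_aeval_eq_zero A hR x hx _
    (p0.primPart.map (algebraMap ℤ (integralClosure ℤ L))) le_rfl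
    (by rw [aeval_map_algebraMap]; exact hp1x)
    ⟨i, by
      rw [coeff_map, ← IsScalarTower.algebraMap_apply]
      simpa using intCast_not_mem_nonunits A hl hA hi⟩
  exact ⟨s, t, hs, hst⟩

/-! ### The Galois action on the ring of algebraic integers -/

section action

variable {L : Type*} [Field L] [Algebra ℚ L]

/-- The Galois action on the ring of algebraic integers. -/
@[instance_reducible]
noncomputable def intClosureAction : MulSemiringAction (L ≃ₐ[ℚ] L) (integralClosure ℤ L) where
  smul σ b := ⟨σ b.1, map_isIntegral_int σ b.2⟩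
  one_smul _ := Subtype.ext rfl
  mul_smul _ _ _ := Subtype.ext rfl
  smul_zero σ := Subtype.ext (map_zero σ)
  smul_add σ a b := Subtype.ext (map_add σ a.1 b.1)
  smul_one σ := Subtype.ext (map_one σ)
  smul_mul σ a b := Subtype.ext (map_mul σ a.1 b.1)

attribute [local instance] intClosureAction

theorem intClosureAction_coe (σ : L ≃ₐ[ℚ] L) (b : integralClosure ℤ L) :
    ((σ • b : integralClosure ℤ L) : L) = σ (b : L) := rfl

theorem intClosure_smulCommClass : SMulCommClass (L ≃ₐ[ℚ] L) ℤ (integralClosure ℤ L) where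
  smul_comm σ n b := Subtype.ext (by
    show σ (n • (b : L)) = n • σ (b : L)
    exact map_zsmul σ n _)

attribute [local instance] intClosure_smulCommClass

theorem intClosure_isInvariant [IsGalois ℚ L] :
    Algebra.IsInvariant ℤ (integralClosure ℤ L) (L ≃ₐ[ℚ] L) := by
  refine ⟨fun b hb => ?_⟩
  have h1 : (b : L) ∈ Set.range (algebraMap ℚ L) := by
    rw [InfiniteGalois.mem_range_algebraMap_iff_fixed]
    intro σ
    exact congrArg Subtype.val (hb σ)
  obtain ⟨q, hq⟩ := h1
  have hqi : IsIntegral ℤ q := by
    have := b.2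
    rw [← hq] at this
    exact (isIntegral_algebraMap_iff (FaithfulSMul.algebraMap_injective ℚ L)).mp this
  obtain ⟨n, hn⟩ := IsIntegrallyClosed.algebraMap_eq_of_integral hqi
  refine ⟨n, Subtype.ext ?_⟩
  rw [← hq, ← hn]
  simp

/-- The discrete topology on the ring of algebraic integers. -/
@[instance_reducible]
def intClosureTopology : TopologicalSpace (integralClosure ℤ L) := ⊥

attribute [local instance] intClosureTopology

theorem intClosure_discrete : DiscreteTopology (integralClosure ℤ L) := ⟨rfl⟩

attribute [local instance] intClosure_discrete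

theorem intClosure_continuousSMul [Algebra.IsIntegral ℚ L] :
    ContinuousSMul (L ≃ₐ[ℚ] L) (integralClosure ℤ L) := by
  rw [continuousSMul_iff_stabilizer_isOpen]
  intro b
  have h : (MulAction.stabilizer (L ≃ₐ[ℚ] L) b : Set (L ≃ₐ[ℚ] L)) =
      MulAction.stabilizer (L ≃ₐ[ℚ] L) (b : L) := by
    ext σ
    simp only [SetLike.mem_coe, MulAction.mem_stabilizer_iff]
    exact Subtype.ext_iff
  rw [h]
  exact stabilizer_isOpen_of_isIntegral (b : L)

end action

/-! ### The center of a valuation subring on the algebraic integers -/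

section center

variable {L : Type*} [Field L] (A : ValuationSubring L)

theorem integral_mem (x : L) (hx : IsIntegral ℤ x) : x ∈ A := by
  have h1 : IsIntegral A x := hx.tower_top
  obtain ⟨y, hy⟩ := IsIntegrallyClosed.algebraMap_eq_of_integral h1
  rw [← hy]
  exact y.2

/-- The inclusion of the algebraic integers into a valuation subring. -/
noncomputable def intClosureToVal : integralClosure ℤ L →+* A where
  toFun b := ⟨b, integral_mem A b b.2⟩
  map_one' := rfl
  map_mul' _ _ := rfl
  map_zero' := rfl
  map_add' _ _ := rfl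

/-- The center of the valuation subring on the algebraic integers. -/
noncomputable def center : Ideal (integralClosure ℤ L) :=
  Ideal.comap (intClosureToVal A) (IsLocalRing.maximalIdeal A)

instance center_isPrime : (center A).IsPrime := by
  unfold center; infer_instance

theorem mem_center_iff (b : integralClosure ℤ L) : b ∈ center A ↔ (b : L) ∈ A.nonunits := by
  unfold center
  rw [Ideal.mem_comap, ← A.coe_mem_nonunits_iff]
  rfl

theorem span_isMaximal {l : ℕ} (hl : l.Prime) : (Ideal.span {(l : ℤ)}).IsMaximal := by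
  have hp : Prime (l : ℤ) := Nat.prime_iff_prime_int.mp hl
  exact PrincipalIdealRing.isMaximal_of_irreducible hp.irreducible

theorem center_liesOver {l : ℕ} (hl : l.Prime) (hA : A.LiesOverPrime l) :
    (center A).LiesOver (Ideal.span {(l : ℤ)}) := by
  refine ⟨?_⟩
  have hmax := span_isMaximal hl
  refine hmax.eq_of_le ?_ ?_
  · intro h
    have h1 : (1 : ℤ) ∈ (center A).under ℤ := by rw [h]; trivial
    rw [Ideal.mem_comap, mem_center_iff, map_one, A.mem_nonunits_iff] at h1
    simp at h1
  · rw [Ideal.span_le]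
    intro x hx
    rw [Set.mem_singleton_iff] at hx
    subst hx
    show _ ∈ (center A).under ℤ
    rw [Ideal.mem_comap, mem_center_iff]
    have hA' : (l : L) ∈ A.nonunits := hA
    simpa using hA'

end center

/-! ### The Frobenius automorphism of the residue field -/

section frob

variable {B : Type*} [CommRing B] (Q : Ideal B) {l : ℕ} (hl : l.Prime)
  [Q.LiesOver (Ideal.span {(l : ℤ)})] [Q.IsPrime] [Algebra.IsIntegral ℤ B]

include hl in
/-- The Frobenius automorphism of the residue field at a prime of an integral `ℤ`-algebra. -/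
theorem exists_frobenius_algEquiv :
    ∃ φ : (B ⧸ Q) ≃ₐ[ℤ ⧸ (Ideal.span {(l : ℤ)})] (B ⧸ Q), ∀ x, φ x = x ^ l := by
  have hp : Prime (l : ℤ) := Nat.prime_iff_prime_int.mp hl
  haveI hPmax : (Ideal.span {(l : ℤ)}).IsMaximal :=
    PrincipalIdealRing.isMaximal_of_irreducible hp.irreducible
  haveI hQmax : Q.IsMaximal := Ideal.IsMaximal.of_liesOver_isMaximal Q (Ideal.span {(l : ℤ)})
  letI := Ideal.Quotient.field (Ideal.span {(l : ℤ)})
  letI := Ideal.Quotient.field Q
  haveI : Fact l.Prime := ⟨hl⟩
  haveI : NeZero l := ⟨hl.ne_zero⟩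
  haveI hfin : Finite (ℤ ⧸ (Ideal.span {(l : ℤ)})) :=
    Finite.of_equiv _ (Int.quotientSpanNatEquivZMod l).symm.toEquiv
  haveI hchar : CharP (ℤ ⧸ (Ideal.span {(l : ℤ)})) l :=
    charP_of_injective_ringHom (f := (Int.quotientSpanNatEquivZMod l).symm.toRingHom)
      (Int.quotientSpanNatEquivZMod l).symm.injective l
  haveI hcharB : CharP (B ⧸ Q) l :=
    charP_of_injective_algebraMap (algebraMap (ℤ ⧸ (Ideal.span {(l : ℤ)})) (B ⧸ Q)).injective l
  haveI : Algebra.IsAlgebraic (ℤ ⧸ (Ideal.span {(l : ℤ)})) (B ⧸ Q) :=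
    Algebra.IsIntegral.isAlgebraic
  haveI : PerfectField (B ⧸ Q) := Algebra.IsAlgebraic.perfectField (ℤ ⧸ (Ideal.span {(l : ℤ)}))
  haveI : ExpChar (B ⧸ Q) l := ExpChar.prime hl
  haveI : PerfectRing (B ⧸ Q) l := PerfectField.toPerfectRing l
  refine ⟨AlgEquiv.ofRingEquiv (f := frobeniusEquiv (B ⧸ Q) l) ?_, ?_⟩
  · intro x
    obtain ⟨n, rfl⟩ := Ideal.Quotient.mk_surjective x
    rw [frobeniusEquiv_apply, frobenius_def]
    have h1 : (Ideal.Quotient.mk (Ideal.span {(l : ℤ)})) n =
        ((n : ℤ) : ℤ ⧸ Ideal.span {(l : ℤ)}) := by simp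
    rw [h1, map_intCast]
    exact map_intCast (frobenius (B ⧸ Q) l) n
  · intro x
    rfl

end frob

/-! ### Part 2: existence of Frobenius elements -/

section main

variable {L : Type*} [Field L] [Algebra ℚ L] [IsGalois ℚ L]

attribute [local instance] intClosureAction intClosure_smulCommClass intClosureTopology
  intClosure_discrete

/-- If `τ` stabilises the center of `A` on the algebraic integers, it maps `A` into `A`. -/
theorem map_mem_of_smul_center_eq (A : ValuationSubring L) {l : ℕ} (hl : l.Prime)
    (hA : A.LiesOverPrime l) (τ : L ≃ₐ[ℚ] L) (hτ : τ • center A = center A)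
    (a : L) (ha : a ∈ A) : τ a ∈ A := by
  obtain ⟨s, t, hs, hst⟩ := exists_integral_mul_eq A hl hA a ha
  have hs' : (τ • s : integralClosure ℤ L) ∉ center A := by
    intro h
    rw [← hτ, Ideal.smul_mem_pointwise_smul_iff, mem_center_iff] at h
    exact hs h
  rw [mem_center_iff, intClosureAction_coe] at hs'
  have hv1 : A.valuation (τ (s : L)) = 1 :=
    valuation_eq_one_of_mem_of_not_mem_nonunits A
      (integral_mem A _ (τ • s : integralClosure ℤ L).2) hs'
  have hv2 : A.valuation (τ (t : L)) ≤ 1 :=
    (A.valuation_le_one_iff _).mpr (integral_mem A _ (τ • t : integralClosure ℤ L).2)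
  have h3 : τ (s : L) * τ a = τ (t : L) := by rw [← map_mul, hst]
  rw [← A.valuation_le_one_iff]
  have h4 := congrArg A.valuation h3
  rw [map_mul, hv1, one_mul] at h4
  rw [h4]
  exact hv2

/-- **Existence of Frobenius elements** for a (possibly infinite) Galois extension `L/ℚ`:
every valuation subring of `L` lying over a prime `l` has a Frobenius element. -/
theorem exists_isFrobeniusAt (A : ValuationSubring L) {l : ℕ} (hl : l.Prime)
    (hA : A.LiesOverPrime l) : ∃ σ : L ≃ₐ[ℚ] L, A.IsFrobeniusAt σ l := by
  haveI : Algebra.IsIntegral ℚ L := inferInstance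
  haveI := intClosure_continuousSMul (L := L)
  haveI := intClosure_isInvariant (L := L)
  haveI := center_liesOver A hl hA
  obtain ⟨φ, hφ⟩ := exists_frobenius_algEquiv (center A) hl
  obtain ⟨⟨σ, hσQ⟩, hσ⟩ := Ideal.Quotient.stabilizerHom_surjective_of_profinite
    (G := L ≃ₐ[ℚ] L) (Ideal.span {(l : ℤ)}) (center A) φ
  rw [MulAction.mem_stabilizer_iff] at hσQ
  -- the congruence `σ b ≡ b ^ l` on algebraic integers
  have key : ∀ b : integralClosure ℤ L, σ (b : L) - (b : L) ^ l ∈ A.nonunits := by
    intro b
    have h1 := DFunLike.congr_fun hσ (Ideal.Quotient.mk _ b)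
    rw [Ideal.Quotient.stabilizerHom_apply, hφ, ← map_pow, Ideal.Quotient.eq,
      mem_center_iff] at h1
    exact h1
  -- `σ` lies in the decomposition group
  have hσinv : σ⁻¹ • center A = center A := by
    rw [inv_smul_eq_iff, hσQ]
  have hmem : ∀ a ∈ A, σ a ∈ A := map_mem_of_smul_center_eq A hl hA σ hσQ
  have hmem' : ∀ a ∈ A, σ⁻¹ a ∈ A := map_mem_of_smul_center_eq A hl hA σ⁻¹ hσinv
  have hdec : σ ∈ A.decompositionSubgroup ℚ := by
    rw [MulAction.mem_stabilizer_iff]
    apply le_antisymm
    · intro x hx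
      obtain ⟨a, ha, rfl⟩ := (ValuationSubring.mem_smul_pointwise_iff_exists σ x A).mp hx
      exact hmem a ha
    · intro x hx
      rw [ValuationSubring.mem_pointwise_smul_iff_inv_smul_mem]
      exact hmem' x hx
  refine ⟨σ, hdec, ?_⟩
  intro x
  obtain ⟨a, rfl⟩ := IsLocalRing.residue_surjective x
  rw [← IsLocalRing.ResidueField.residue_smul, ← map_pow]
  rw [← sub_eq_zero, ← map_sub, IsLocalRing.residue_eq_zero_iff, ← A.coe_mem_nonunits_iff]
  show σ (a : L) - (a : L) ^ l ∈ A.nonunits
  obtain ⟨s, t, hs, hst⟩ := exists_integral_mul_eq A hl hA a a.2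
  have hsA : (s : L) ∈ A := integral_mem A _ s.2
  have hvs : A.valuation (s : L) = 1 := valuation_eq_one_of_mem_of_not_mem_nonunits A hsA hs
  have hσa : σ (a : L) ∈ A := hmem a a.2
  have h1 : (s : L) ^ l * (σ (a : L) - (a : L) ^ l) =
      -(σ (s : L) - (s : L) ^ l) * σ (a : L) + (σ (t : L) - (t : L) ^ l) := by
    have e1 : σ (s : L) * σ (a : L) = σ (t : L) := by rw [← map_mul, hst]
    have e2 : (s : L) ^ l * (a : L) ^ l = (t : L) ^ l := by rw [← mul_pow, hst]
    linear_combination e1 - e2
  have h2 : (s : L) ^ l * (σ (a : L) - (a : L) ^ l) ∈ A.nonunits := by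
    rw [h1]
    exact A.nonunits.add_mem (nonunits_mul_mem A (A.nonunits.neg_mem (key s)) hσa) (key t)
  rw [A.mem_nonunits_iff, map_mul, map_pow, hvs, one_pow, one_mul] at h2
  exact A.mem_nonunits_iff.mpr h2

end main

/-! ### Specialisation to `AlgebraicClosure ℚ` -/

/-- Existence of a valuation subring of `AlgebraicClosure ℚ` lying over a prime. -/
theorem exists_valuationSubring_algebraicClosure (l : ℕ) (hl : l.Prime) :
    ∃ A : ValuationSubring (AlgebraicClosure ℚ), A.LiesOverPrime l :=
  exists_valuationSubring_liesOverPrime l hl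

/-- Existence of Frobenius elements in the absolute Galois group of `ℚ`. -/
theorem exists_isFrobeniusAt_algebraicClosure (A : ValuationSubring (AlgebraicClosure ℚ))
    {l : ℕ} (hl : l.Prime) (hA : A.LiesOverPrime l) :
    ∃ σ : AlgebraicClosure ℚ ≃ₐ[ℚ] AlgebraicClosure ℚ, A.IsFrobeniusAt σ l :=
  exists_isFrobeniusAt A hl hA

/-- For every prime `l` there are a valuation subring of `AlgebraicClosure ℚ` over `l` and a
Frobenius element for it. -/
theorem exists_valuationSubring_isFrobeniusAt (l : ℕ) (hl : l.Prime) :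
    ∃ (A : ValuationSubring (AlgebraicClosure ℚ))
      (σ : AlgebraicClosure ℚ ≃ₐ[ℚ] AlgebraicClosure ℚ),
      A.LiesOverPrime l ∧ A.IsFrobeniusAt σ l := by
  obtain ⟨A, hA⟩ := exists_valuationSubring_algebraicClosure l hl
  obtain ⟨σ, hσ⟩ := exists_isFrobeniusAt_algebraicClosure A hl hA
  exact ⟨A, σ, hA, hσ⟩

end Fermat.Agent.Lib.FrobeniusExists
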