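import Mathlib

set_option autoImplicit false

namespace Fermat.Agent.Lib.MvPSComplete

open IsLocalRing MvPowerSeries

section Sup

variable {R : Type*} [CommRing R]

/-- Precompleteness with respect to two ideals gives precompleteness for their sum. -/
theorem isPrecomplete_sup (I J : Ideal R) (hI : IsPrecomplete I R) (hJ : IsPrecomplete J R) :
    IsPrecomplete (I ⊔ J) R := by
  refine ⟨fun f hf => ?_⟩
  -- membership form
  have hf' : ∀ {m n : ℕ}, m ≤ n → f m - f n ∈ (I ⊔ J) ^ m := by
    intro m n hmn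
    have := hf hmn
    rw [SModEq.sub_mem] at this
    simpa using this
  -- decompose the differences of the subsequence `g n = f (2 n)`
  have hdec : ∀ n : ℕ, ∃ a ∈ I ^ n, ∃ b ∈ J ^ n, f (2 * (n + 1)) - f (2 * n) = a + b := by
    intro n
    have h1 : f (2 * (n + 1)) - f (2 * n) ∈ (I ⊔ J) ^ (n + n) := by
      have h2 : f (2 * n) - f (2 * (n + 1)) ∈ (I ⊔ J) ^ (2 * n) := hf' (by omega)
      have h3 := Ideal.neg_mem_iff _ |>.mpr h2
      rw [neg_sub] at h3
      have h5 : 2 * n = n + n := two_mul n
      rwa [h5] at h3 ⊢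
    have h4 := Ideal.sup_pow_add_le_pow_sup_pow h1
    obtain ⟨a, ha, b, hb, hab⟩ := Submodule.mem_sup.mp h4
    exact ⟨a, ha, b, hb, hab.symm⟩
  choose a ha b hb hab using hdec
  -- partial sums
  let A : ℕ → R := fun n => ∑ i ∈ Finset.range n, a i
  let B : ℕ → R := fun n => ∑ i ∈ Finset.range n, b i
  have hA : ∀ {m n : ℕ}, m ≤ n → A m ≡ A n [SMOD (I ^ m • ⊤ : Submodule R R)] := by
    intro m n hmn
    rw [SModEq.sub_mem]
    simp only [smul_eq_mul, Ideal.mul_top]
    have : A n - A m = ∑ i ∈ Finset.Ico m n, a i := by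
      simp only [A]
      rw [Finset.sum_Ico_eq_sub _ hmn]
    have h2 : A n - A m ∈ I ^ m := by
      rw [this]
      refine Ideal.sum_mem _ fun i hi => ?_
      exact Ideal.pow_le_pow_right (Finset.mem_Ico.mp hi).1 (ha i)
    have h3 := Ideal.neg_mem_iff _ |>.mpr h2
    rwa [neg_sub] at h3
  have hB : ∀ {m n : ℕ}, m ≤ n → B m ≡ B n [SMOD (J ^ m • ⊤ : Submodule R R)] := by
    intro m n hmn
    rw [SModEq.sub_mem]
    simp only [smul_eq_mul, Ideal.mul_top]
    have : B n - B m = ∑ i ∈ Finset.Ico m n, b i := by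
      simp only [B]
      rw [Finset.sum_Ico_eq_sub _ hmn]
    have h2 : B n - B m ∈ J ^ m := by
      rw [this]
      refine Ideal.sum_mem _ fun i hi => ?_
      exact Ideal.pow_le_pow_right (Finset.mem_Ico.mp hi).1 (hb i)
    have h3 := Ideal.neg_mem_iff _ |>.mpr h2
    rwa [neg_sub] at h3
  obtain ⟨LA, hLA⟩ := hI.prec hA
  obtain ⟨LB, hLB⟩ := hJ.prec hB
  have hg : ∀ n : ℕ, f (2 * n) = f 0 + A n + B n := by
    intro n
    induction n with
    | zero => simp [A, B]
    | succ n ih =>
      have := hab n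
      simp only [A, B, Finset.sum_range_succ] at ih ⊢
      linear_combination ih + this
  refine ⟨f 0 + LA + LB, fun n => ?_⟩
  rw [SModEq.sub_mem]
  simp only [smul_eq_mul, Ideal.mul_top]
  have h1 : f n - f (2 * n) ∈ (I ⊔ J) ^ n := hf' (by omega)
  have h2 : A n - LA ∈ I ^ n := by
    have := hLA n
    rw [SModEq.sub_mem] at this
    simpa using this
  have h3 : B n - LB ∈ J ^ n := by
    have := hLB n
    rw [SModEq.sub_mem] at this
    simpa using this
  have h4 : A n - LA ∈ (I ⊔ J) ^ n := Ideal.pow_right_mono le_sup_left n h2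
  have h5 : B n - LB ∈ (I ⊔ J) ^ n := Ideal.pow_right_mono le_sup_right n h3
  have : f n - (f 0 + LA + LB) = (f n - f (2 * n)) + (A n - LA) + (B n - LB) := by
    rw [hg n]; ring
  rw [this]
  exact Ideal.add_mem _ (Ideal.add_mem _ h1 h4) h5

end Sup

section Coeff

variable {σ : Type*} {R : Type*} [CommRing R]

/-- If all coefficients of a power series lie in a finitely generated ideal `𝔞`, the power series
lies in the extension of `𝔞`. -/
theorem mem_map_C_of_forall_coeff_mem {𝔞 : Ideal R} (h𝔞 : 𝔞.FG) (f : MvPowerSeries σ R)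
    (hf : ∀ d, coeff d f ∈ 𝔞) : f ∈ 𝔞.map (C (σ := σ) (R := R)) := by
  classical
  obtain ⟨s, hs⟩ := h𝔞
  have hmem : ∀ d, ∃ c : s → R, coeff d f = ∑ j, c j * (j : R) := by
    intro d
    have h1 : coeff d f ∈ Ideal.span ((s : Set R)) := by rw [hs]; exact hf d
    have h2 : (s : Set R) = Set.range (fun j : s => (j : R)) := by simp
    rw [h2] at h1
    obtain ⟨c, hc⟩ := (Ideal.mem_span_range_iff_exists_fun).mp h1
    exact ⟨c, hc.symm⟩
  choose c hc using hmem
  let g : s → MvPowerSeries σ R := fun j => (fun d => c d j)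
  have hfe : f = ∑ j : s, C (σ := σ) (R := R) (j : R) * g j := by
    ext d
    rw [map_sum, hc d]
    refine Finset.sum_congr rfl fun j _ => ?_
    rw [coeff_C_mul, coeff_apply, mul_comm]
  rw [hfe]
  refine Ideal.sum_mem _ fun j _ => Ideal.mul_mem_right _ _ ?_
  refine Ideal.mem_map_of_mem _ ?_
  rw [← hs]
  exact Ideal.subset_span j.2

theorem forall_coeff_mem_of_mem_map_C {𝔞 : Ideal R} (f : MvPowerSeries σ R)
    (hf : f ∈ 𝔞.map (C (σ := σ) (R := R))) : ∀ d : σ →₀ ℕ, coeff d f ∈ 𝔞 := by
  classical
  rw [Ideal.map] at hf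
  refine Submodule.span_induction (p := fun f _ => ∀ d : σ →₀ ℕ, coeff d f ∈ 𝔞) ?_ ?_ ?_ ?_ hf
  · rintro _ ⟨a, ha, rfl⟩ d
    rw [coeff_C]
    split_ifs
    · exact ha
    · exact 𝔞.zero_mem
  · simp
  · intro x y _ _ hx hy d
    rw [map_add]
    exact 𝔞.add_mem (hx d) (hy d)
  · intro g x _ hx d
    rw [smul_eq_mul, coeff_mul]
    refine Ideal.sum_mem _ fun p _ => ?_
    exact Ideal.mul_mem_left _ _ (hx p.2)

theorem mem_map_C_iff {𝔞 : Ideal R} (h𝔞 : 𝔞.FG) (f : MvPowerSeries σ R) :
    f ∈ 𝔞.map (C (σ := σ) (R := R)) ↔ ∀ d, coeff d f ∈ 𝔞 :=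
  ⟨forall_coeff_mem_of_mem_map_C f, mem_map_C_of_forall_coeff_mem h𝔞 f⟩

/-- `MvPowerSeries σ R` is precomplete for the extension of an ideal `𝔞` of `R` for which `R` is
precomplete, provided all powers of `𝔞` are finitely generated (e.g. `R` Noetherian). -/
theorem isPrecomplete_map_C (𝔞 : Ideal R) (hfg : ∀ n, (𝔞 ^ n).FG) (h : IsPrecomplete 𝔞 R) :
    IsPrecomplete (𝔞.map (C (σ := σ) (R := R))) (MvPowerSeries σ R) := by
  refine ⟨fun f hf => ?_⟩
  have hf' : ∀ {m n : ℕ}, m ≤ n → ∀ d, coeff d (f m) - coeff d (f n) ∈ 𝔞 ^ m := by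
    intro m n hmn d
    have := hf hmn
    rw [SModEq.sub_mem] at this
    simp only [smul_eq_mul, Ideal.mul_top, ← Ideal.map_pow] at this
    have h2 := forall_coeff_mem_of_mem_map_C _ this d
    rwa [map_sub] at h2
  have hlim : ∀ d, ∃ L : R, ∀ n, coeff d (f n) - L ∈ 𝔞 ^ n := by
    intro d
    have hc : ∀ {m n : ℕ}, m ≤ n →
        coeff d (f m) ≡ coeff d (f n) [SMOD (𝔞 ^ m • ⊤ : Submodule R R)] := by
      intro m n hmn
      rw [SModEq.sub_mem]
      simpa using hf' hmn d
    obtain ⟨L, hL⟩ := h.prec hc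
    refine ⟨L, fun n => ?_⟩
    have := hL n
    rw [SModEq.sub_mem] at this
    simpa using this
  choose L hL using hlim
  let Lf : MvPowerSeries σ R := fun d => L d
  refine ⟨Lf, fun n => ?_⟩
  rw [SModEq.sub_mem]
  simp only [smul_eq_mul, Ideal.mul_top, ← Ideal.map_pow]
  refine mem_map_C_of_forall_coeff_mem (hfg n) _ fun d => ?_
  rw [map_sub]
  exact hL d n

end Coeff

section Vars

variable {σ : Type*} {R : Type*} [CommRing R]

theorem mem_span_X_image_of_forall_coeff_eq_zero (T : Finset σ) :
    ∀ g : MvPowerSeries σ R, (∀ m : σ →₀ ℕ, (∀ s ∈ T, m s = 0) → coeff m g = 0) →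
      g ∈ Ideal.span ((fun s => (X s : MvPowerSeries σ R)) '' (T : Set σ)) := by
  classical
  induction T using Finset.induction_on with
  | empty =>
    intro g hg
    have : g = 0 := by
      ext m
      rw [hg m (by simp)]
      simp
    rw [this]
    exact Ideal.zero_mem _
  | insert s T' hs ih =>
    intro g hg
    let g1 : MvPowerSeries σ R := fun m => if m s = 0 then 0 else g m
    let g2 : MvPowerSeries σ R := fun m => if m s = 0 then g m else 0
    have hsum : g = g1 + g2 := by
      ext m
      rw [map_add, coeff_apply, coeff_apply, coeff_apply]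
      simp only [g1, g2]
      split_ifs <;> simp
    have h1 : (X s : MvPowerSeries σ R) ∣ g1 := by
      rw [X_dvd_iff]
      intro m hm
      rw [coeff_apply]
      simp only [g1, hm, if_true]
    have h2 : g2 ∈ Ideal.span ((fun s => (X s : MvPowerSeries σ R)) '' (T' : Set σ)) := by
      apply ih
      intro m hm
      rw [coeff_apply]
      simp only [g2]
      split_ifs with h0
      · have := hg m (by
          intro t ht
          rcases Finset.mem_insert.mp ht with rfl | ht'
          · exact h0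
          · exact hm t ht')
        rwa [coeff_apply] at this
      · rfl
    rw [hsum]
    refine Ideal.add_mem _ ?_ ?_
    · obtain ⟨q, hq⟩ := h1
      rw [hq]
      refine Ideal.mul_mem_right _ _ (Ideal.subset_span ?_)
      exact ⟨s, by simp, rfl⟩
    · refine Ideal.span_mono ?_ h2
      apply Set.image_mono
      intro t ht
      simp only [Finset.coe_insert, Set.mem_insert_iff]
      exact Or.inr ht

theorem mem_span_range_X_of_constantCoeff_eq_zero [Finite σ] (g : MvPowerSeries σ R)
    (hg : constantCoeff g = 0) :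
    g ∈ Ideal.span (Set.range (fun s => (X s : MvPowerSeries σ R))) := by
  classical
  have := Fintype.ofFinite σ
  have := mem_span_X_image_of_forall_coeff_eq_zero (Finset.univ : Finset σ) g (by
    intro m hm
    have hm0 : m = 0 := by
      ext s
      simpa using hm s (Finset.mem_univ s)
    rw [hm0, coeff_zero_eq_constantCoeff_apply, hg])
  simpa using this

variable [IsLocalRing R]

theorem maximalIdeal_eq [Finite σ] :
    maximalIdeal (MvPowerSeries σ R) =
      Ideal.span (Set.range (fun s => (X s : MvPowerSeries σ R))) ⊔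
        (maximalIdeal R).map (C (σ := σ) (R := R)) := by
  apply le_antisymm
  · intro f hf
    have hf0 : constantCoeff f ∈ maximalIdeal R := by
      rw [mem_maximalIdeal, mem_nonunits_iff] at hf ⊢
      intro h
      exact hf (MvPowerSeries.isUnit_iff_constantCoeff.mpr h)
    have : f = (f - C (constantCoeff f)) + C (constantCoeff f) := by ring
    rw [this]
    refine Ideal.add_mem _ (Ideal.mem_sup_left ?_) (Ideal.mem_sup_right ?_)
    · apply mem_span_range_X_of_constantCoeff_eq_zero
      simp
    · exact Ideal.mem_map_of_mem _ hf0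
  · rw [sup_le_iff]
    constructor
    · rw [Ideal.span_le]
      rintro _ ⟨s, rfl⟩
      rw [SetLike.mem_coe, mem_maximalIdeal, mem_nonunits_iff,
        MvPowerSeries.isUnit_iff_constantCoeff]
      simp
    · rw [Ideal.map_le_iff_le_comap]
      intro a ha
      rw [Ideal.mem_comap, mem_maximalIdeal, mem_nonunits_iff,
        MvPowerSeries.isUnit_iff_constantCoeff]
      simpa using ha

end Vars


section Main

variable {σ : Type*} [Finite σ] {R : Type*} [CommRing R] [IsNoetherianRing R] [IsLocalRing R]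

/-- A power series ring in finitely many variables over a complete Noetherian local ring is
complete for its maximal ideal. -/
theorem isAdicComplete_maximalIdeal [IsAdicComplete (maximalIdeal R) R] :
    IsAdicComplete (maximalIdeal (MvPowerSeries σ R)) (MvPowerSeries σ R) := by
  have hH : IsHausdorff (maximalIdeal (MvPowerSeries σ R)) (MvPowerSeries σ R) := inferInstance
  have h1 : IsPrecomplete (Ideal.span (Set.range (fun s => (X s : MvPowerSeries σ R))))
      (MvPowerSeries σ R) := by
    have : IsAdicComplete (Ideal.span (Set.range (X : σ → MvPowerSeries σ R)))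
        (MvPowerSeries σ R) := inferInstance
    exact this.toIsPrecomplete
  have h2 : IsPrecomplete ((maximalIdeal R).map (C (σ := σ) (R := R))) (MvPowerSeries σ R) :=
    isPrecomplete_map_C _ (fun n => (maximalIdeal R ^ n).fg_of_isNoetherianRing)
      (IsAdicComplete.toIsPrecomplete)
  have h3 := isPrecomplete_sup _ _ h1 h2
  rw [← maximalIdeal_eq] at h3
  exact { toIsHausdorff := hH, toIsPrecomplete := h3 }

end Main

end Fermat.Agent.Lib.MvPSComplete
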