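/-
Shared library (helper29): regular sequences on multivariate power series rings over a
discrete valuation ring, and transport of regularity / finite length to a module which is
free over the power series ring through an endomorphism.  Used for S57 (patching descent).
-/
import Mathlib

set_option autoImplicit false

namespace Fermat.Agent.Lib.MvPSRegular

open MvPowerSeries RingTheory.Sequence

section Vanish

variable {σ : Type*} {R : Type*} [CommRing R]

/-- Power series all of whose coefficients at monomials vanishing on `S` are zero. -/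
def vanishIdeal (S : Set σ) : Ideal (MvPowerSeries σ R) where
  carrier := {f | ∀ m : σ →₀ ℕ, (∀ s ∈ S, m s = 0) → coeff m f = 0}
  add_mem' := by
    intro f g hf hg m hm
    simp [hf m hm, hg m hm]
  zero_mem' := by
    intro m _
    simp
  smul_mem' := by
    classical
    intro c f hf m hm
    simp only [smul_eq_mul, coeff_mul]
    apply Finset.sum_eq_zero
    intro p hp
    have hp' : p.1 + p.2 = m := by simpa using hp
    have : ∀ s ∈ S, p.2 s = 0 := by
      intro s hs
      have := hm s hs
      rw [← hp'] at this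
      simp at this
      exact this.2
    rw [hf p.2 this, mul_zero]

lemma mem_vanishIdeal {S : Set σ} {f : MvPowerSeries σ R} :
    f ∈ vanishIdeal (R := R) S ↔ ∀ m : σ →₀ ℕ, (∀ s ∈ S, m s = 0) → coeff m f = 0 := Iff.rfl

lemma X_mem_vanishIdeal {S : Set σ} {s : σ} (hs : s ∈ S) :
    (X s : MvPowerSeries σ R) ∈ vanishIdeal (R := R) S := by
  classical
  intro m hm
  rw [coeff_X]
  rw [if_neg]
  intro h
  have := hm s hs
  rw [h] at this
  simp at this

lemma span_le_vanishIdeal (S : Set σ) :
    Ideal.span ((fun s => (X s : MvPowerSeries σ R)) '' S) ≤ vanishIdeal S := by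
  rw [Ideal.span_le]
  rintro _ ⟨s, hs, rfl⟩
  exact X_mem_vanishIdeal hs

lemma vanishIdeal_finset_le_span (S : Finset σ) :
    vanishIdeal (R := R) (S : Set σ) ≤
      Ideal.span ((fun s => (X s : MvPowerSeries σ R)) '' (S : Set σ)) := by
  classical
  induction S using Finset.induction_on with
  | empty =>
    intro f hf
    have : f = 0 := by
      ext m
      simpa using hf m (by simp)
    rw [this]
    exact Ideal.zero_mem _
  | insert a S ha ih =>
    intro f hf
    let h : MvPowerSeries σ R := fun m => if m a = 0 then coeff m f else 0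
    have hcoeff : ∀ m, coeff m h = if m a = 0 then coeff m f else 0 := fun m => rfl
    have hh : h ∈ vanishIdeal (R := R) (S : Set σ) := by
      intro m hm
      rw [hcoeff]
      split_ifs with h0
      · apply hf
        intro s hs
        simp only [Finset.coe_insert, Set.mem_insert_iff, Finset.mem_coe] at hs
        rcases hs with rfl | hs
        · exact h0
        · exact hm s hs
      · rfl
    have hdvd : X a ∣ f - h := by
      rw [X_dvd_iff]
      intro m hm
      rw [map_sub, hcoeff, if_pos hm, sub_self]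
    obtain ⟨g, hg⟩ := hdvd
    have hf' : f = X a * g + h := by rw [← hg]; ring
    rw [hf']
    apply Ideal.add_mem
    · apply Ideal.mul_mem_right
      apply Ideal.subset_span
      exact ⟨a, by simp, rfl⟩
    · have := ih hh
      refine Ideal.span_mono ?_ this
      apply Set.image_mono
      simp

lemma span_X_image_eq_vanishIdeal (S : Finset σ) :
    Ideal.span ((fun s => (X s : MvPowerSeries σ R)) '' (S : Set σ)) = vanishIdeal (S : Set σ) :=
  le_antisymm (span_le_vanishIdeal _) (vanishIdeal_finset_le_span S)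

lemma ofList_map_X_eq_vanishIdeal (l : List σ) :
    Ideal.ofList (l.map (fun s => (X s : MvPowerSeries σ R))) = vanishIdeal {s | s ∈ l} := by
  classical
  have h1 : {r | r ∈ l.map (fun s => (X s : MvPowerSeries σ R))} =
      (fun s => (X s : MvPowerSeries σ R)) '' ((l.toFinset : Finset σ) : Set σ) := by
    ext r
    simp
  have h2 : {s | s ∈ l} = ((l.toFinset : Finset σ) : Set σ) := by
    ext s; simp
  rw [Ideal.ofList, h1, h2, span_X_image_eq_vanishIdeal]

lemma X_mul_mem_vanishIdeal {S : Set σ} {a : σ} (ha : a ∉ S) {f : MvPowerSeries σ R}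
    (hf : X a * f ∈ vanishIdeal (R := R) S) : f ∈ vanishIdeal (R := R) S := by
  classical
  intro m hm
  have h1 := hf (Finsupp.single a 1 + m) (by
    intro s hs
    have : s ≠ a := fun h => ha (h ▸ hs)
    simp [hm s hs, this.symm])
  rw [X_def, coeff_add_monomial_mul, one_mul] at h1
  exact h1

/-- Distinct variables form a weakly regular sequence on the power series ring. -/
theorem isWeaklyRegular_map_X (l : List σ) (hl : l.Nodup) :
    IsWeaklyRegular (MvPowerSeries σ R) (l.map (fun s => (X s : MvPowerSeries σ R))) := by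
  induction l using List.reverseRecOn with
  | nil => simp
  | append_singleton l a ih =>
    rw [List.nodup_append] at hl
    obtain ⟨hl1, -, hl3⟩ := hl
    rw [List.map_append, isWeaklyRegular_append_iff]
    refine ⟨ih hl1, ?_⟩
    rw [List.map_singleton, isWeaklyRegular_singleton_iff,
      isSMulRegular_quotient_iff_mem_of_smul_mem]
    intro f hf
    rw [smul_eq_mul, Ideal.mul_top, ofList_map_X_eq_vanishIdeal] at hf ⊢
    refine X_mul_mem_vanishIdeal ?_ hf
    intro ha
    exact hl3 a ha a (by simp) rfl

lemma C_mul_mem_vanishIdeal {S : Set σ} {c : R} (hc : IsSMulRegular R c) {f : MvPowerSeries σ R}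
    (hf : C c * f ∈ vanishIdeal (R := R) S) : f ∈ vanishIdeal (R := R) S := by
  intro m hm
  have h1 := hf m hm
  rw [coeff_C_mul] at h1
  have : c • (coeff m f) = c • 0 := by simpa using h1
  exact hc this

/-- Distinct variables followed by a regular constant form a weakly regular sequence. -/
theorem isWeaklyRegular_map_X_append_C (l : List σ) (hl : l.Nodup) {c : R}
    (hc : IsSMulRegular R c) :
    IsWeaklyRegular (MvPowerSeries σ R)
      (l.map (fun s => (X s : MvPowerSeries σ R)) ++ [C c]) := by
  rw [isWeaklyRegular_append_iff]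
  refine ⟨isWeaklyRegular_map_X l hl, ?_⟩
  rw [isWeaklyRegular_singleton_iff, isSMulRegular_quotient_iff_mem_of_smul_mem]
  intro f hf
  rw [smul_eq_mul, Ideal.mul_top, ofList_map_X_eq_vanishIdeal] at hf ⊢
  exact C_mul_mem_vanishIdeal hc hf

end Vanish

section LocalBase

variable {σ : Type*} {O : Type*} [CommRing O] [IsLocalRing O]

/-- If the maximal ideal of the local ring `O` is generated by `ϖ`, the maximal ideal of
`O⟦σ⟧` is generated by the variables and `ϖ`. -/
theorem ofList_map_X_append_C_eq_maximalIdeal (l : List σ) (hl : ∀ s, s ∈ l) {ϖ : O}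
    (hϖ : IsLocalRing.maximalIdeal O = Ideal.span {ϖ}) :
    Ideal.ofList (l.map (fun s => (X s : MvPowerSeries σ O)) ++ [C ϖ]) =
      IsLocalRing.maximalIdeal (MvPowerSeries σ O) := by
  have hmem : ∀ f : MvPowerSeries σ O, f ∈ IsLocalRing.maximalIdeal (MvPowerSeries σ O) ↔
      constantCoeff f ∈ IsLocalRing.maximalIdeal O := by
    intro f
    rw [IsLocalRing.mem_maximalIdeal, IsLocalRing.mem_maximalIdeal, mem_nonunits_iff,
      mem_nonunits_iff, MvPowerSeries.isUnit_iff_constantCoeff]
  apply le_antisymm
  · rw [Ideal.ofList, Ideal.span_le]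
    intro f hf
    simp only [List.mem_append, List.mem_map, List.mem_singleton, Set.mem_ofPred_eq] at hf
    rw [SetLike.mem_coe, hmem]
    rcases hf with ⟨s, -, rfl⟩ | rfl
    · rw [constantCoeff_X]; exact Ideal.zero_mem _
    · rw [constantCoeff_C, hϖ]; exact Ideal.mem_span_singleton_self ϖ
  · intro f hf
    rw [hmem, hϖ, Ideal.mem_span_singleton'] at hf
    obtain ⟨c, hc⟩ := hf
    have hdecomp : f = C c * C ϖ + (f - C (constantCoeff f)) := by
      rw [← map_mul, hc]; ring
    rw [hdecomp, Ideal.ofList_append]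
    apply Ideal.add_mem
    · apply Ideal.mem_sup_right
      apply Ideal.mul_mem_left
      rw [Ideal.ofList_singleton]
      exact Ideal.mem_span_singleton_self _
    · apply Ideal.mem_sup_left
      rw [ofList_map_X_eq_vanishIdeal]
      intro m hm
      have hm0 : m = 0 := by
        ext s
        exact hm s (hl s)
      rw [hm0, map_sub, coeff_zero_eq_constantCoeff_apply, coeff_zero_eq_constantCoeff_apply,
        constantCoeff_C, sub_self]

/-- The variables followed by a regular generator `ϖ` of the maximal ideal of `O` form a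
regular sequence on `O⟦σ⟧`. -/
theorem isRegular_map_X_append_C (l : List σ) (hl : l.Nodup) (hl' : ∀ s, s ∈ l) {ϖ : O}
    (hϖ : IsLocalRing.maximalIdeal O = Ideal.span {ϖ}) (hreg : IsSMulRegular O ϖ) :
    IsRegular (MvPowerSeries σ O) (l.map (fun s => (X s : MvPowerSeries σ O)) ++ [C ϖ]) := by
  rw [IsLocalRing.isRegular_iff_isWeaklyRegular_of_subset_maximalIdeal]
  · exact isWeaklyRegular_map_X_append_C l hl hreg
  · intro r hr
    rw [← ofList_map_X_append_C_eq_maximalIdeal l hl' hϖ]
    exact Ideal.subset_span hr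

end LocalBase

section General

variable {B A : Type*} [CommRing B] [CommRing A] {φ : B →+* A}
  {N : Type*} [AddCommGroup N] [Module A N] {d : ℕ}

/-- Transport of weak regularity along a bijective semilinear map from a free module. -/
theorem isWeaklyRegular_map_of_bijective (g : (Fin d → B) →ₛₗ[φ] N) (hg : Function.Bijective g)
    (xs : List B) (h : IsWeaklyRegular B xs) : IsWeaklyRegular N (xs.map φ) := by
  have h1 : IsWeaklyRegular (TensorProduct B B (Fin d → B)) xs := h.isWeaklyRegular_rTensor
  have h2 : IsWeaklyRegular (Fin d → B) xs :=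
    (LinearEquiv.isWeaklyRegular_congr (TensorProduct.lid B (Fin d → B)) xs).mp h1
  let e : (Fin d → B) ≃+ N := AddEquiv.ofBijective g.toAddMonoidHom hg
  refine (AddEquiv.isWeaklyRegular_congr (e := e) ?_).mp h2
  rw [List.forall₂_map_right_iff, List.forall₂_same]
  intro r _ x
  exact g.map_smulₛₗ r x

/-- A finitely generated module modulo a maximal ideal has finite length. -/
theorem isFiniteLength_quot_smul_top_of_isMaximal [IsNoetherianRing B] (m : Ideal B)
    [hm : m.IsMaximal] (M : Type*) [AddCommGroup M] [Module B M] [Module.Finite B M] :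
    IsFiniteLength B (M ⧸ (m • ⊤ : Submodule B M)) := by
  rw [isFiniteLength_iff_isNoetherian_isArtinian]
  refine ⟨inferInstance, ?_⟩
  let _ : Field (B ⧸ m) := Ideal.Quotient.field m
  have : Module.Finite (B ⧸ m) (M ⧸ (m • ⊤ : Submodule B M)) :=
    Module.Finite.of_restrictScalars_finite B (B ⧸ m) _
  have : IsArtinian (B ⧸ m) (M ⧸ (m • ⊤ : Submodule B M)) := inferInstance
  exact isArtinian_of_surjective_algebraMap (R := B ⧸ m) (S := B) Ideal.Quotient.mk_surjective

/-- If `N` is free of finite rank over `B` through `φ : B → A` and `xs` generates a maximal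
ideal of `B`, then `N / (φ xs) N` has finite length over `A`. -/
theorem isFiniteLength_quot_of_bijective [IsNoetherianRing B]
    (g : (Fin d → B) →ₛₗ[φ] N) (hg : Function.Bijective g)
    (xs : List B) (hxs : (Ideal.ofList xs).IsMaximal) :
    IsFiniteLength A (N ⧸ (Ideal.ofList (xs.map φ) • ⊤ : Submodule A N)) := by
  set m := Ideal.ofList xs with hm
  set P := (Ideal.ofList (xs.map φ) • ⊤ : Submodule A N) with hP
  let g' : (Fin d → B) →ₛₗ[φ] (N ⧸ P) := (P.mkQ).comp g
  have hg' : Function.Surjective g' := (P.mkQ_surjective).comp hg.2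
  have hker : ∀ S : Submodule A (N ⧸ P), (m • ⊤ : Submodule B (Fin d → B)) ≤ S.comap g' := by
    intro S
    rw [Submodule.smul_le]
    intro r hr c _
    rw [Submodule.mem_comap, map_smulₛₗ]
    have : φ r ∈ Ideal.ofList (xs.map φ) := by
      rw [← Ideal.map_ofList]
      exact Ideal.mem_map_of_mem φ hr
    have h0 : φ r • g' c = 0 := by
      obtain ⟨y, hy⟩ := P.mkQ_surjective (g' c)
      rw [← hy, ← map_smul, Submodule.mkQ_apply, Submodule.Quotient.mk_eq_zero]
      exact Submodule.smul_mem_smul this Submodule.mem_top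
    rw [h0]
    exact S.zero_mem
  let F : Submodule A (N ⧸ P) → Set.Ici (m • ⊤ : Submodule B (Fin d → B)) :=
    fun S => ⟨S.comap g', hker S⟩
  have hF : StrictMono F := by
    intro S T hST
    refine lt_of_le_of_ne ?_ ?_
    · exact Submodule.comap_mono (f := g') hST.le
    · intro heq
      apply hST.ne
      have heq' : S.comap g' = T.comap g' := congrArg Subtype.val heq
      apply le_antisymm hST.le
      intro y hy
      obtain ⟨c, rfl⟩ := hg' y
      have : c ∈ T.comap g' := hy
      rw [← heq'] at this
      exact this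
  have hfl := isFiniteLength_quot_smul_top_of_isMaximal m (Fin d → B)
  rw [isFiniteLength_iff_isNoetherian_isArtinian] at hfl ⊢
  obtain ⟨hN, hA⟩ := hfl
  let e := Submodule.comapMkQRelIso (m • ⊤ : Submodule B (Fin d → B))
  have hF' : StrictMono (fun S => e.symm (F S)) := fun S T h => e.symm.strictMono (hF h)
  constructor
  · have h1 : WellFoundedGT (Submodule B ((Fin d → B) ⧸ (m • ⊤ : Submodule B (Fin d → B)))) :=
      isNoetherian_iff'.mp hN
    exact isNoetherian_iff'.mpr hF'.wellFoundedGT
  · have h1 : WellFoundedLT (Submodule B ((Fin d → B) ⧸ (m • ⊤ : Submodule B (Fin d → B)))) := hA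
    exact hF'.wellFoundedLT

end General

/-! ### The patching situation

`A = O⟦X₁,…,X_r⟧`, `φ : A →ₐ[O] A`, and an `A`-module `N` with `b : Fin d → N` such that
`c ↦ ∑ i, φ (c i) • b i` is a bijection `A^d → N` (this is `b_span` and `b_rel` with `J = ⊥`
in `Algebra.PatchingLevel`). -/

section Patching

variable {O : Type*} [CommRing O] {r : ℕ}
  {N : Type*} [AddCommGroup N] [Module (MvPowerSeries (Fin r) O) N]
  (φ : MvPowerSeries (Fin r) O →ₐ[O] MvPowerSeries (Fin r) O) {d : ℕ} (b : Fin d → N)

/-- The `φ`-semilinear map `A^d → N`, `c ↦ ∑ i, φ (c i) • b i`. -/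
noncomputable def basisMap :
    (Fin d → MvPowerSeries (Fin r) O) →ₛₗ[(φ : MvPowerSeries (Fin r) O →+* MvPowerSeries (Fin r) O)]
      N where
  toFun c := ∑ i, φ (c i) • b i
  map_add' c c' := by
    simp only [Pi.add_apply, map_add, add_smul, Finset.sum_add_distrib]
  map_smul' a c := by
    simp only [Pi.smul_apply, smul_eq_mul, map_mul, mul_smul, Finset.smul_sum]
    rfl

lemma basisMap_apply (c : Fin d → MvPowerSeries (Fin r) O) :
    basisMap φ b c = ∑ i, φ (c i) • b i := rfl

variable {φ b}

lemma basisMap_bijective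
    (b_span : ∀ x : N, ∃ c : Fin d → MvPowerSeries (Fin r) O, x = ∑ i, φ (c i) • b i)
    (b_rel : ∀ c : Fin d → MvPowerSeries (Fin r) O, ∑ i, φ (c i) • b i = 0 ↔
      ∀ i, c i ∈ (⊥ : Ideal (MvPowerSeries (Fin r) O))) :
    Function.Bijective (basisMap φ b) := by
  constructor
  · rw [← LinearMap.ker_eq_bot, Submodule.eq_bot_iff]
    intro c hc
    rw [LinearMap.mem_ker, basisMap_apply, b_rel] at hc
    funext i
    exact (Ideal.mem_bot.mp (hc i))
  · intro x
    obtain ⟨c, hc⟩ := b_span x
    exact ⟨c, hc.symm⟩

/-- `N` is a finitely generated `A`-module. -/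
lemma finite_of_span
    (b_span : ∀ x : N, ∃ c : Fin d → MvPowerSeries (Fin r) O, x = ∑ i, φ (c i) • b i) :
    Module.Finite (MvPowerSeries (Fin r) O) N := by
  classical
  refine ⟨⟨Finset.univ.image b, ?_⟩⟩
  rw [eq_top_iff]
  intro x _
  obtain ⟨c, rfl⟩ := b_span x
  refine Submodule.sum_mem _ fun i _ => Submodule.smul_mem _ _ (Submodule.subset_span ?_)
  simp

variable (r) in
/-- The list `[X 0, …, X (r-1), C ϖ]` of parameters of `O⟦X₁,…,X_r⟧`. -/
noncomputable def paramList (ϖ : O) : List (MvPowerSeries (Fin r) O) :=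
  (List.finRange r).map (fun s => (X s : MvPowerSeries (Fin r) O)) ++ [C ϖ]

@[simp] lemma length_paramList (ϖ : O) : (paramList r ϖ).length = r + 1 := by
  simp [paramList]

lemma map_paramList (ϖ : O) :
    (paramList r ϖ).map φ =
      (List.finRange r).map (fun s => φ (X s)) ++ [C ϖ] := by
  have h : φ (C ϖ) = C ϖ := by
    have := φ.commutes ϖ
    rwa [MvPowerSeries.algebraMap_apply, Algebra.algebraMap_self_apply] at this
  simp [paramList, h]

section DVR

variable [IsDomain O] [IsDiscreteValuationRing O]

theorem isRegular_paramList {ϖ : O} (hϖ : Irreducible ϖ) :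
    IsRegular (MvPowerSeries (Fin r) O) (paramList r ϖ) :=
  isRegular_map_X_append_C (List.finRange r) (List.nodup_finRange r) List.mem_finRange
    hϖ.maximalIdeal_eq (_root_.IsRegular.of_ne_zero hϖ.ne_zero).left.isSMulRegular

theorem ofList_paramList {ϖ : O} (hϖ : Irreducible ϖ) :
    Ideal.ofList (paramList r ϖ) = IsLocalRing.maximalIdeal (MvPowerSeries (Fin r) O) :=
  ofList_map_X_append_C_eq_maximalIdeal (List.finRange r) List.mem_finRange hϖ.maximalIdeal_eq

/-- `φ X₁, …, φ X_r, ϖ` is a weakly regular sequence on `N`. -/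
theorem isWeaklyRegular_of_patching {ϖ : O} (hϖ : Irreducible ϖ)
    (b_span : ∀ x : N, ∃ c : Fin d → MvPowerSeries (Fin r) O, x = ∑ i, φ (c i) • b i)
    (b_rel : ∀ c : Fin d → MvPowerSeries (Fin r) O, ∑ i, φ (c i) • b i = 0 ↔
      ∀ i, c i ∈ (⊥ : Ideal (MvPowerSeries (Fin r) O))) :
    IsWeaklyRegular N ((paramList r ϖ).map φ) :=
  isWeaklyRegular_map_of_bijective (basisMap φ b) (basisMap_bijective b_span b_rel)
    (paramList r ϖ) (isRegular_paramList hϖ).toIsWeaklyRegular

/-- `N / (φ X₁, …, φ X_r, ϖ) N` has finite length over `A`. -/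
theorem isFiniteLength_of_patching {ϖ : O} (hϖ : Irreducible ϖ)
    (b_span : ∀ x : N, ∃ c : Fin d → MvPowerSeries (Fin r) O, x = ∑ i, φ (c i) • b i)
    (b_rel : ∀ c : Fin d → MvPowerSeries (Fin r) O, ∑ i, φ (c i) • b i = 0 ↔
      ∀ i, c i ∈ (⊥ : Ideal (MvPowerSeries (Fin r) O))) :
    IsFiniteLength (MvPowerSeries (Fin r) O)
      (N ⧸ (Ideal.ofList ((paramList r ϖ).map φ) • ⊤ :
        Submodule (MvPowerSeries (Fin r) O) N)) := by
  refine isFiniteLength_quot_of_bijective (basisMap φ b) (basisMap_bijective b_span b_rel)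
    (paramList r ϖ) ?_
  rw [ofList_paramList hϖ]
  infer_instance

/-- Every member of `φ X₁, …, φ X_r, ϖ` lies in the maximal ideal as soon as the `φ X_i` do. -/
theorem mem_maximalIdeal_of_patching {ϖ : O} (hϖ : Irreducible ϖ)
    (hφ : ∀ i : Fin r, φ (X i) ∈ IsLocalRing.maximalIdeal (MvPowerSeries (Fin r) O)) :
    ∀ z ∈ (paramList r ϖ).map φ, z ∈ IsLocalRing.maximalIdeal (MvPowerSeries (Fin r) O) := by
  intro z hz
  rw [map_paramList] at hz
  simp only [List.mem_append, List.mem_map, List.mem_singleton] at hz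
  rcases hz with ⟨i, -, rfl⟩ | rfl
  · exact hφ i
  · rw [← ofList_paramList hϖ]
    exact Ideal.subset_span (by simp [paramList])

end DVR

end Patching

end Fermat.Agent.Lib.MvPSRegular
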