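import Mathlib

/-!
# A finitely generated module of maximal depth over a regular local ring is free

Abstract form (special case of the Auslander-Buchsbaum formula) used for the patching
descent step.
-/

set_option autoImplicit false

universe u

namespace Fermat.Agent.Lib.RegularFree

open CategoryTheory IsLocalRing RingTheory.Sequence

variable {R : Type u} [CommRing R] [IsLocalRing R]

/-- A simple module over a local ring is isomorphic to the quotient by the maximal ideal. -/
theorem simple_equiv_quotient_maximalIdeal (S : Type u) [AddCommGroup S] [Module R S]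
    [IsSimpleModule R S] : Nonempty (S ≃ₗ[R] (R ⧸ maximalIdeal R)) := by
  obtain ⟨I, hI, ⟨e⟩⟩ := isSimpleModule_iff_quot_maximal.mp (inferInstance : IsSimpleModule R S)
  have : I = maximalIdeal R := IsLocalRing.eq_maximalIdeal hI
  subst this
  exact ⟨e⟩

variable [IsNoetherianRing R]

/-- If the maximal ideal of a noetherian local ring is generated by a regular sequence `xs`,
then the residue field has projective dimension `< xs.length + 1`. -/
theorem hasProjectiveDimensionLT_residue (xs : List R) (hxs : IsRegular R xs)
    (hmax : Ideal.ofList xs = maximalIdeal R) :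
    HasProjectiveDimensionLT (ModuleCat.of R (R ⧸ maximalIdeal R)) (xs.length + 1) := by
  have h := ModuleCat.projectiveDimension_quotient_eq_length.{u} xs hxs
  have e : (Shrink.{u} (R ⧸ Ideal.ofList xs)) ≃ₗ[R] (R ⧸ maximalIdeal R) :=
    (Shrink.linearEquiv R _).trans (Submodule.quotEquivOfEq _ _ hmax)
  rw [projectiveDimension_eq_of_iso e.toModuleIso] at h
  rw [← projectiveDimension_lt_iff, h]
  exact_mod_cast Nat.lt_succ_self _

/-- Over such a ring every module of finite length has projective dimension `≤ xs.length`. -/
theorem hasProjectiveDimensionLT_of_isFiniteLength (xs : List R) (hxs : IsRegular R xs)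
    (hmax : Ideal.ofList xs = maximalIdeal R)
    (L : Type u) [AddCommGroup L] [Module R L] (hL : IsFiniteLength R L) :
    HasProjectiveDimensionLT (ModuleCat.of R L) (xs.length + 1) := by
  induction hL with
  | @of_subsingleton M _ _ _ =>
    have := (ModuleCat.isZero_of_subsingleton (ModuleCat.of R M)).hasProjectiveDimensionLT_zero
    exact hasProjectiveDimensionLT_of_ge _ 0 _ (Nat.zero_le _)
  | @of_simple_quotient M _ _ N _ _ ih =>
    obtain ⟨e⟩ := simple_equiv_quotient_maximalIdeal (R := R) (M ⧸ N)
    have h3 : HasProjectiveDimensionLT (ModuleCat.of R (M ⧸ N)) (xs.length + 1) := by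
      have := hasProjectiveDimensionLT_residue xs hxs hmax
      exact hasProjectiveDimensionLT_of_iso e.toModuleIso.symm _
    have hS : (ShortComplex.mk (ModuleCat.ofHom N.subtype) (ModuleCat.ofHom N.mkQ)
        (by ext; simp)).ShortExact := by
      refine ModuleCat.shortComplex_shortExact _ ?_ ?_ ?_
      · intro y
        simp only [ModuleCat.hom_ofHom, Submodule.mkQ_apply, Submodule.Quotient.mk_eq_zero,
          Set.mem_range, Submodule.subtype_apply, Subtype.exists, exists_prop, exists_eq_right]
      · exact N.injective_subtype
      · exact N.mkQ_surjective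
    exact hS.hasProjectiveDimensionLT_X₂ _ ih h3

/-- **Maximal depth implies free** over a noetherian local ring whose maximal ideal is generated
by a regular sequence: if a finitely generated module `N` admits a weakly regular sequence `zs`
in the maximal ideal which is at least as long as `xs`, and `N / zs N` has finite length,
then `N` is free. -/
theorem free_of_isWeaklyRegular (xs : List R) (hxs : IsRegular R xs)
    (hmax : Ideal.ofList xs = maximalIdeal R)
    (N : Type u) [AddCommGroup N] [Module R N] [Module.Finite R N]
    (zs : List R) (hzs : IsWeaklyRegular N zs) (hmem : ∀ z ∈ zs, z ∈ maximalIdeal R)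
    (hlen : xs.length ≤ zs.length)
    (hfl : IsFiniteLength R (N ⧸ Ideal.ofList zs • (⊤ : Submodule R N))) :
    Module.Free R N := by
  rcases subsingleton_or_nontrivial N with hN | hN
  · exact Module.Free.of_subsingleton R N
  have h1 := ModuleCat.projectiveDimension_quotient_eq_add_length_of_isWeaklyRegular
    (ModuleCat.of R N) zs hzs hmem
  have h2 : HasProjectiveDimensionLT
      (ModuleCat.of R (N ⧸ Ideal.ofList zs • (⊤ : Submodule R N))) (xs.length + 1) :=
    hasProjectiveDimensionLT_of_isFiniteLength xs hxs hmax _ hfl
  have h3 : HasProjectiveDimensionLT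
      (ModuleCat.of R (N ⧸ Ideal.ofList zs • (⊤ : Submodule R N))) (zs.length + 1) :=
    hasProjectiveDimensionLT_of_ge _ (xs.length + 1) _ (by omega)
  have h4 : projectiveDimension (ModuleCat.of R N) + zs.length ≤ ((0 : ℕ) : WithBot ℕ∞) + zs.length := by
    rw [← h1, Nat.cast_zero, zero_add]
    exact (projectiveDimension_le_iff _ _).mpr h3
  rw [ENat.WithBot.add_le_add_natCast_right_iff] at h4
  have h5 : Projective (ModuleCat.of R N) := by
    rw [projective_iff_hasProjectiveDimensionLE_zero]
    exact (projectiveDimension_le_iff _ _).mp h4
  have h6 : Module.Projective R N := by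
    rw [IsProjective.iff_projective]
    exact h5
  exact Module.free_of_flat_of_isLocalRing

end Fermat.Agent.Lib.RegularFree
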